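import Mathlib
import Fermat.Agent.S41.H41.Transfer
import Fermat.Agent.S41.H26.ParabolicU2

/-!
# S41, leaf (PAIR), the final formal assembly (PAIR-OUT), conditional form

`pairStatement_of` produces the body of `Fermat.Agent.S41.H40.PairStatement p N q l₀` (the (PAIR)
leaf exactly as the top assembly consumes it) from an *integral* pairing
`E M : Hom(Γ₀(M), ℤ) → Hom(Γ₀(M), ℤ) → ℤ` given at every positive level `M` with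

* biadditivity and skew-symmetry on the parabolic homs,
* (PERF): `φ ∈ L(M)` and `p ∣ E φ ψ` for all `ψ ∈ L(M)` imply `φ ∈ p L(M)`,
* (ADJ) `E (alpha_i x) u = E x (beta_i u)`, `i = 1, 2`, for every prime `r ∤ N`,
* the two identities `beta1 ∘ alpha2 = T_{l₀} = beta2 ∘ alpha1` at the level pair `(N, N l₀)`.

The forms `EN`, `EM` are `E N`, `E (N q)` reduced modulo `p`; self-adjointness of `T_{l₀}` is the
chain `E(T x, y) = E(β₂ α₁ x, y) = -E(y, β₂ α₁ x) = -E''(α₂ y, α₁ x) = E''(α₁ x, α₂ y)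
= E(x, β₁ α₂ y) = E(x, T y)`.
-/

set_option autoImplicit false

open CongruenceSubgroup ModularCurve ModularCurve.Period
open scoped MatrixGroups
open Fermat.Agent.S16.H75 (heckeHom)
open Fermat.Agent.S41.H41 (alpha1 alpha2 beta1 beta2)

namespace Fermat.Agent.S41.H14

/-- An integral pairing on the parabolic homs of `Γ`, reduced modulo `p`, as a biadditive map on
the lattice `parabolicHoms ℤ Γ ℤ`. -/
noncomputable def redPair (p : ℕ) {Γ : Subgroup SL(2, ℤ)}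
    (E : (Additive Γ →+ ℤ) → (Additive Γ →+ ℤ) → ℤ)
    (hl : ∀ φ φ' ψ, φ ∈ parabolicHoms ℤ Γ ℤ → φ' ∈ parabolicHoms ℤ Γ ℤ →
      ψ ∈ parabolicHoms ℤ Γ ℤ → E (φ + φ') ψ = E φ ψ + E φ' ψ)
    (hr : ∀ φ ψ ψ', φ ∈ parabolicHoms ℤ Γ ℤ → ψ ∈ parabolicHoms ℤ Γ ℤ →
      ψ' ∈ parabolicHoms ℤ Γ ℤ → E φ (ψ + ψ') = E φ ψ + E φ ψ') :
    ↥(parabolicHoms ℤ Γ ℤ) →+ ↥(parabolicHoms ℤ Γ ℤ) →+ ZMod p :=
  AddMonoidHom.mk' (fun x => AddMonoidHom.mk' (fun y => ((E x.1 y.1 : ℤ) : ZMod p))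
      (fun y y' => by
        show ((E x.1 (y.1 + y'.1) : ℤ) : ZMod p) = _
        rw [hr _ _ _ x.2 y.2 y'.2, Int.cast_add]))
    (fun x x' => by
      refine AddMonoidHom.ext fun y => ?_
      show ((E (x.1 + x'.1) y.1 : ℤ) : ZMod p) = ((E x.1 y.1 : ℤ) : ZMod p) + ((E x'.1 y.1 : ℤ) : ZMod p)
      rw [hl _ _ _ x.2 x'.2 y.2, Int.cast_add])

theorem redPair_apply (p : ℕ) {Γ : Subgroup SL(2, ℤ)}
    (E : (Additive Γ →+ ℤ) → (Additive Γ →+ ℤ) → ℤ) hl hr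
    (x y : ↥(parabolicHoms ℤ Γ ℤ)) :
    redPair p E hl hr x y = ((E x.1 y.1 : ℤ) : ZMod p) := rfl

/-- (PERF) for the reduced pairing. -/
theorem redPair_perf (p : ℕ) {Γ : Subgroup SL(2, ℤ)}
    (E : (Additive Γ →+ ℤ) → (Additive Γ →+ ℤ) → ℤ) hl hr
    (hperf : ∀ φ, φ ∈ parabolicHoms ℤ Γ ℤ →
      (∀ ψ, ψ ∈ parabolicHoms ℤ Γ ℤ → (p : ℤ) ∣ E φ ψ) →
      ∃ φ', φ' ∈ parabolicHoms ℤ Γ ℤ ∧ φ = p • φ')
    (x : ↥(parabolicHoms ℤ Γ ℤ)) (hx : ∀ y, redPair p E hl hr x y = 0) :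
    ∃ w : ↥(parabolicHoms ℤ Γ ℤ), x = p • w := by
  obtain ⟨φ', hφ', e⟩ := hperf x.1 x.2 (fun ψ hψ => by
    have := hx ⟨ψ, hψ⟩
    rw [redPair_apply] at this
    exact (ZMod.intCast_zmod_eq_zero_iff_dvd _ _).1 this)
  exact ⟨⟨φ', hφ'⟩, Subtype.ext (by rw [e]; rfl)⟩

/-- **PAIR-OUT, conditional form**: the body of `Fermat.Agent.S41.H40.PairStatement p N q l₀`
from an integral pairing at every positive level which is biadditive, skew, perfect at `p`, and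
satisfies (ADJ) for both degeneracy maps at every prime `r ∤ N`, together with the two identities
`beta1 ∘ alpha2 = T_{l₀} = beta2 ∘ alpha1` at the level pair `(N, N l₀)`. -/
theorem pairStatement_of {p N q : ℕ} {l₀ : Nat.Primes} (hN : 0 < N) (hq : q.Prime)
    (hqN : ¬ q ∣ N) (hl₀N : ¬ (l₀ : ℕ) ∣ N)
    (E : ∀ M : ℕ, (Additive (Gamma0 M) →+ ℤ) → (Additive (Gamma0 M) →+ ℤ) → ℤ)
    (hl : ∀ M, 0 < M → ∀ φ φ' ψ, φ ∈ parabolicHoms ℤ (Gamma0 M) ℤ →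
      φ' ∈ parabolicHoms ℤ (Gamma0 M) ℤ → ψ ∈ parabolicHoms ℤ (Gamma0 M) ℤ →
      E M (φ + φ') ψ = E M φ ψ + E M φ' ψ)
    (hr : ∀ M, 0 < M → ∀ φ ψ ψ', φ ∈ parabolicHoms ℤ (Gamma0 M) ℤ →
      ψ ∈ parabolicHoms ℤ (Gamma0 M) ℤ → ψ' ∈ parabolicHoms ℤ (Gamma0 M) ℤ →
      E M φ (ψ + ψ') = E M φ ψ + E M φ ψ')
    (hskew : ∀ M, 0 < M → ∀ φ ψ, φ ∈ parabolicHoms ℤ (Gamma0 M) ℤ →
      ψ ∈ parabolicHoms ℤ (Gamma0 M) ℤ → E M ψ φ = - E M φ ψ)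
    (hperf : ∀ M, 0 < M → ∀ φ, φ ∈ parabolicHoms ℤ (Gamma0 M) ℤ →
      (∀ ψ, ψ ∈ parabolicHoms ℤ (Gamma0 M) ℤ → (p : ℤ) ∣ E M φ ψ) →
      ∃ φ', φ' ∈ parabolicHoms ℤ (Gamma0 M) ℤ ∧ φ = p • φ')
    (hadj1 : ∀ r : ℕ, r.Prime → ¬ r ∣ N → ∀ x u, x ∈ parabolicHoms ℤ (Gamma0 N) ℤ →
      u ∈ parabolicHoms ℤ (Gamma0 (N * r)) ℤ →
      E (N * r) (alpha1 N r ℤ x) u = E N x (beta1 N r ℤ u))
    (hadj2 : ∀ r : ℕ, r.Prime → ¬ r ∣ N → ∀ x u, x ∈ parabolicHoms ℤ (Gamma0 N) ℤ →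
      u ∈ parabolicHoms ℤ (Gamma0 (N * r)) ℤ →
      E (N * r) (alpha2 N r ℤ x) u = E N x (beta2 N r ℤ u))
    (hb12 : ∀ φ, φ ∈ parabolicHoms ℤ (Gamma0 N) ℤ →
      beta1 N l₀ ℤ (alpha2 N l₀ ℤ φ) = heckeHom N l₀ ℤ φ)
    (hb21 : ∀ φ, φ ∈ parabolicHoms ℤ (Gamma0 N) ℤ →
      beta2 N l₀ ℤ (alpha1 N l₀ ℤ φ) = heckeHom N l₀ ℤ φ) :
    ∃ (EN : ↥(parabolicHoms ℤ (Gamma0 N) ℤ) →+ ↥(parabolicHoms ℤ (Gamma0 N) ℤ) →+ ZMod p)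
      (EM : ↥(parabolicHoms ℤ (Gamma0 (N * q)) ℤ) →+
        ↥(parabolicHoms ℤ (Gamma0 (N * q)) ℤ) →+ ZMod p),
      (∀ x, (∀ y, EN x y = 0) → ∃ w, x = p • w) ∧
      (∀ u, (∀ v, EM u v = 0) → ∃ w, u = p • w) ∧
      (∀ (x u' : ↥(parabolicHoms ℤ (Gamma0 N) ℤ)) (u x' : ↥(parabolicHoms ℤ (Gamma0 (N * q)) ℤ)),
        (x' : Additive (Gamma0 (N * q)) →+ ℤ) = alpha1 N q ℤ x →
        (u' : Additive (Gamma0 N) →+ ℤ) = beta1 N q ℤ u → EM x' u = EN x u') ∧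
      (∀ (x u' : ↥(parabolicHoms ℤ (Gamma0 N) ℤ)) (u x' : ↥(parabolicHoms ℤ (Gamma0 (N * q)) ℤ)),
        (x' : Additive (Gamma0 (N * q)) →+ ℤ) = alpha2 N q ℤ x →
        (u' : Additive (Gamma0 N) →+ ℤ) = beta2 N q ℤ u → EM x' u = EN x u') ∧
      (∀ x y x' y' : ↥(parabolicHoms ℤ (Gamma0 N) ℤ),
        (x' : Additive (Gamma0 N) →+ ℤ) = heckeHom N l₀ ℤ x →
        (y' : Additive (Gamma0 N) →+ ℤ) = heckeHom N l₀ ℤ y → EN x' y = EN x y') := by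
  have hM : 0 < N * q := Nat.mul_pos hN hq.pos
  have hL : 0 < N * (l₀ : ℕ) := Nat.mul_pos hN l₀.2.pos
  refine ⟨redPair p (E N) (hl N hN) (hr N hN), redPair p (E (N * q)) (hl _ hM) (hr _ hM),
    redPair_perf p _ _ _ (hperf N hN), redPair_perf p _ _ _ (hperf _ hM), ?_, ?_, ?_⟩
  · intro x u' u x' hx' hu'
    rw [redPair_apply, redPair_apply, hx', hu', hadj1 q hq hqN _ _ x.2 u.2]
  · intro x u' u x' hx' hu'
    rw [redPair_apply, redPair_apply, hx', hu', hadj2 q hq hqN _ _ x.2 u.2]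
  · intro x y x' y' hx' hy'
    rw [redPair_apply, redPair_apply, hx', hy']
    congr 1
    have ha1x : alpha1 N l₀ ℤ x.1 ∈ parabolicHoms ℤ (Gamma0 (N * (l₀ : ℕ))) ℤ :=
      Fermat.Agent.S41.H26.alpha1_mem_parabolicHoms x.2
    have ha2y : alpha2 N l₀ ℤ y.1 ∈ parabolicHoms ℤ (Gamma0 (N * (l₀ : ℕ))) ℤ :=
      Fermat.Agent.S41.H26.alpha2_mem_parabolicHoms l₀.2 y.2
    have hb : beta2 N l₀ ℤ (alpha1 N l₀ ℤ x.1) ∈ parabolicHoms ℤ (Gamma0 N) ℤ :=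
      Fermat.Agent.S41.H26.beta2_mem_parabolicHoms l₀.2 hl₀N ha1x
    calc E N (heckeHom N l₀ ℤ x.1) y.1
        = E N (beta2 N l₀ ℤ (alpha1 N l₀ ℤ x.1)) y.1 := by rw [hb21 _ x.2]
      _ = - E N y.1 (beta2 N l₀ ℤ (alpha1 N l₀ ℤ x.1)) := hskew N hN _ _ y.2 hb
      _ = - E (N * (l₀ : ℕ)) (alpha2 N l₀ ℤ y.1) (alpha1 N l₀ ℤ x.1) := by
          rw [hadj2 l₀ l₀.2 hl₀N _ _ y.2 ha1x]
      _ = E (N * (l₀ : ℕ)) (alpha1 N l₀ ℤ x.1) (alpha2 N l₀ ℤ y.1) := by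
          rw [hskew _ hL _ _ ha1x ha2y, neg_neg]
      _ = E N x.1 (beta1 N l₀ ℤ (alpha2 N l₀ ℤ y.1)) := hadj1 l₀ l₀.2 hl₀N _ _ x.2 ha2y
      _ = E N x.1 (heckeHom N l₀ ℤ y.1) := by rw [hb12 _ y.2]

end Fermat.Agent.S41.H14
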