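/-
S41 / helper14: pairing sub-leaf (P1) of #1433 — the coset-model LINEAR ALGEBRA of the
Poincaré-duality pairing (#1085 (1)), in abstract form.  Mathlib only.

`X` a finite set, `σ` an involution of `X`, `ρ` ANY permutation of `X`, `F` a field with `2 ≠ 0`.
On `I = X → F` with the standard form `f ⬝ᵥ g`, write `(s f) x = f (σ x)`, `(r' f) x = f (ρ⁻¹ x)`.

* `cocW σ ρ = ker (1 + s) ⊓ range (r' - 1)`  (T-normalised, elliptic-vanishing cocycles);
* `cobC σ ρ = {s n - n | r' n = s n}`        (coboundaries of T-invariant functions);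
* `2 B(P, P') = -(P ⬝ᵥ P') - 2 (P ⬝ᵥ m')` for any `m'` with `(r' - 1) m' = P'`.

Results: well-definedness (`dot_eq_of_sub_eq`), alternating (`dot_self_add_two_mul`),
`cocW = (I^s + I^r)^⊥` and `cocW^⊥ = I^s + I^r`, radical `= cobC` (`radical_iff`), and the bundled
form with perfectness on `cocW / cobC` (`exists_pairing`).
-/
import Mathlib

set_option autoImplicit false
set_option linter.unusedSectionVars false

open Module

noncomputable section

namespace Fermat.Agent.S41.H14

variable {X : Type*} [Fintype X] {F : Type*} [Field F]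

/-! ### The standard form and permutation operators -/

/-- Reindexing the standard form along a permutation. -/
theorem dot_comp_perm (π : Equiv.Perm X) (f g : X → F) :
    (fun x => f (π x)) ⬝ᵥ g = f ⬝ᵥ (fun x => g (π.symm x)) := by
  unfold dotProduct
  rw [← Equiv.sum_comp π (fun y => f y * g (π.symm y))]
  simp

/-- For an involution the permutation operator is self-adjoint. -/
theorem dot_comp_invol (σ : Equiv.Perm X) (hσ : ∀ x, σ (σ x) = x) (f g : X → F) :
    (fun x => f (σ x)) ⬝ᵥ g = f ⬝ᵥ (fun x => g (σ x)) := by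
  rw [dot_comp_perm]
  have : σ.symm = σ := by
    ext x
    rw [Equiv.symm_apply_eq, hσ]
  rw [this]

/-- The standard form as a bilinear form. -/
def dotB (X : Type*) [Fintype X] (F : Type*) [Field F] : LinearMap.BilinForm F (X → F) :=
  LinearMap.mk₂ F (fun f g => f ⬝ᵥ g) (fun f f' g => add_dotProduct f f' g)
    (fun c f g => smul_dotProduct c f g) (fun f g g' => dotProduct_add f g g')
    (fun c f g => dotProduct_smul c f g)

@[simp] theorem dotB_apply (f g : X → F) : dotB X F f g = f ⬝ᵥ g := rfl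

theorem dotB_isSymm : (dotB X F).IsSymm :=
  ⟨fun f g => by simp [dotProduct_comm]⟩

theorem dotB_isRefl : (dotB X F).IsRefl := dotB_isSymm.isRefl

theorem dotB_nondegenerate : (dotB X F).Nondegenerate := by
  classical
  have hr : LinearMap.IsRefl (dotB X F) := dotB_isRefl
  rw [LinearMap.BilinForm.Nondegenerate, hr.nondegenerate_iff_separatingLeft]
  intro f hf
  funext i
  have := hf (Pi.single i 1)
  simpa using this

/-! ### The spaces -/

variable (σ ρ : Equiv.Perm X)

/-- `I^π`: functions invariant under the permutation `π`. -/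
def invSub (F : Type*) [Field F] (π : Equiv.Perm X) : Submodule F (X → F) where
  carrier := {n | ∀ x, n (π x) = n x}
  add_mem' := fun {a b} ha hb x => by simp [ha x, hb x]
  zero_mem' := fun x => rfl
  smul_mem' := fun c a ha x => by simp [ha x]

theorem mem_invSub {π : Equiv.Perm X} {n : X → F} : n ∈ invSub F π ↔ ∀ x, n (π x) = n x :=
  Iff.rfl

/-- `ker (1 + s)`. -/
def antiSub (F : Type*) [Field F] (σ : Equiv.Perm X) : Submodule F (X → F) where
  carrier := {P | ∀ x, P x + P (σ x) = 0}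
  add_mem' := fun {a b} ha hb x => by
    have h1 := ha x
    have h2 := hb x
    simp only [Pi.add_apply]
    linear_combination h1 + h2
  zero_mem' := fun x => by simp
  smul_mem' := fun c a ha x => by
    have h1 := ha x
    simp only [Pi.smul_apply, smul_eq_mul]
    linear_combination c * h1

theorem mem_antiSub {σ : Equiv.Perm X} {P : X → F} : P ∈ antiSub F σ ↔ ∀ x, P x + P (σ x) = 0 :=
  Iff.rfl

/-- `range (r' - 1)`, `(r' m) x = m (ρ⁻¹ x)`. -/
def bdSub (F : Type*) [Field F] (ρ : Equiv.Perm X) : Submodule F (X → F) where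
  carrier := {P | ∃ m : X → F, ∀ x, m (ρ.symm x) - m x = P x}
  add_mem' := by
    rintro a b ⟨m, hm⟩ ⟨m', hm'⟩
    refine ⟨m + m', fun x => ?_⟩
    have h1 := hm x
    have h2 := hm' x
    simp only [Pi.add_apply]
    linear_combination h1 + h2
  zero_mem' := ⟨0, fun x => by simp⟩
  smul_mem' := by
    rintro c a ⟨m, hm⟩
    refine ⟨c • m, fun x => ?_⟩
    have h1 := hm x
    simp only [Pi.smul_apply, smul_eq_mul]
    linear_combination c * h1

theorem mem_bdSub {ρ : Equiv.Perm X} {P : X → F} :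
    P ∈ bdSub F ρ ↔ ∃ m : X → F, ∀ x, m (ρ.symm x) - m x = P x :=
  Iff.rfl

/-- `W = ker (1 + s) ⊓ range (r' - 1)`: the `T`-normalised, elliptic-vanishing cocycles
(`P = c(s) = c(r⁻¹)`). -/
def cocW (F : Type*) [Field F] (σ ρ : Equiv.Perm X) : Submodule F (X → F) :=
  antiSub F σ ⊓ bdSub F ρ

theorem mem_cocW {P : X → F} :
    P ∈ cocW F σ ρ ↔ (∀ x, P x + P (σ x) = 0) ∧ ∃ m : X → F, ∀ x, m (ρ.symm x) - m x = P x :=
  Iff.rfl

/-- `C = {s n - n | r' n = s n}`: the coboundaries of `T`-invariant functions. -/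
def cobC (F : Type*) [Field F] (σ ρ : Equiv.Perm X) : Submodule F (X → F) where
  carrier := {P | ∃ n : X → F, (∀ x, n (ρ.symm x) = n (σ x)) ∧ ∀ x, P x = n (σ x) - n x}
  add_mem' := by
    rintro a b ⟨n, hn, ha⟩ ⟨n', hn', hb⟩
    refine ⟨n + n', fun x => by simp [hn x, hn' x], fun x => ?_⟩
    simp only [Pi.add_apply, ha x, hb x]
    ring
  zero_mem' := ⟨0, fun x => rfl, fun x => by simp⟩
  smul_mem' := by
    rintro c a ⟨n, hn, ha⟩
    refine ⟨c • n, fun x => by simp [hn x], fun x => ?_⟩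
    simp only [Pi.smul_apply, smul_eq_mul, ha x]
    ring

theorem mem_cobC {P : X → F} :
    P ∈ cobC F σ ρ ↔ ∃ n : X → F, (∀ x, n (ρ.symm x) = n (σ x)) ∧ ∀ x, P x = n (σ x) - n x :=
  Iff.rfl

variable {σ ρ}

theorem cobC_le_cocW (hσ : ∀ x, σ (σ x) = x) : cobC F σ ρ ≤ cocW F σ ρ := by
  rintro P ⟨n, hn, hP⟩
  refine ⟨fun x => ?_, n, fun x => ?_⟩
  · rw [hP x, hP (σ x), hσ]
    ring
  · rw [hP x, hn x]

/-! ### (L1), (L2) -/

/-- **(L1)** The form `P ⬝ᵥ m` only depends on `(r' - 1) m` when `P ∈ range (r' - 1)`. -/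
theorem dot_eq_of_sub_eq {P : X → F} (hP : P ∈ bdSub F ρ) {m₁ m₂ : X → F}
    (h : ∀ x, m₁ (ρ.symm x) - m₁ x = m₂ (ρ.symm x) - m₂ x) : P ⬝ᵥ m₁ = P ⬝ᵥ m₂ := by
  obtain ⟨a, ha⟩ := hP
  have hP' : P = (fun x => a (ρ.symm x)) - a := by
    funext x
    simp [ha x]
  have hd : ∀ x, (m₁ - m₂) (ρ x) = (m₁ - m₂) x := by
    intro x
    have := h (ρ x)
    simp only [Equiv.symm_apply_apply] at this
    simp only [Pi.sub_apply]
    linear_combination -this
  rw [← sub_eq_zero, ← dotProduct_sub, hP', sub_dotProduct, dot_comp_perm]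
  have : (fun x => (m₁ - m₂) (ρ.symm.symm x)) = m₁ - m₂ := by
    funext x
    simpa using hd x
  rw [this, sub_self]

/-- **(L2)** Division-free form of `B(P, P) = 0`. -/
theorem dot_self_add_two_mul {P m : X → F} (h : ∀ x, m (ρ.symm x) - m x = P x) :
    P ⬝ᵥ P + 2 * (P ⬝ᵥ m) = 0 := by
  have hP : P = (fun x => m (ρ.symm x)) - m := by
    funext x
    simp [h x]
  have h1 : (fun x => m (ρ.symm x)) ⬝ᵥ (fun x => m (ρ.symm x)) = m ⬝ᵥ m := by
    rw [dot_comp_perm]
    congr 1
    funext x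
    simp
  have h2 : m ⬝ᵥ (fun x => m (ρ.symm x)) = (fun x => m (ρ.symm x)) ⬝ᵥ m := dotProduct_comm _ _
  rw [hP]
  simp only [sub_dotProduct, dotProduct_sub, h1, h2]
  ring

/-! ### (L3) orthogonality -/

/-- `ker (1 + s) = (I^s)^⊥` (needs `2 ≠ 0` and `σ² = 1`). -/
theorem antiSub_eq_orthogonal (hσ : ∀ x, σ (σ x) = x) (h2 : (2 : F) ≠ 0) :
    antiSub F σ = (dotB X F).orthogonal (invSub F σ) := by
  ext P
  rw [LinearMap.BilinForm.mem_orthogonal_iff]
  constructor
  · intro hP n hn
    rw [dotB_apply]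
    have h1 : (fun x => n (σ x)) = n := funext hn
    have h3 : (fun x => P (σ x)) = -P := by
      funext x
      have := hP x
      simp only [Pi.neg_apply]
      linear_combination this
    have h4 : n ⬝ᵥ P = -(n ⬝ᵥ P) := by
      conv_lhs => rw [← h1, dot_comp_invol σ hσ, h3, dotProduct_neg]
    have h5 : (2 : F) * (n ⬝ᵥ P) = 0 := by linear_combination h4
    exact (mul_eq_zero.mp h5).resolve_left h2
  · intro h
    have h0 : ∀ g : X → F, g ⬝ᵥ (P + fun x => P (σ x)) = 0 := by
      intro g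
      have hg : (g + fun x => g (σ x)) ∈ invSub F σ := by
        intro x
        simp only [Pi.add_apply, hσ]
        ring
      have := h _ hg
      rw [dotB_apply, add_dotProduct, dot_comp_invol σ hσ] at this
      rw [dotProduct_add]
      exact this
    have hz : (P + fun x => P (σ x)) = 0 := by
      have hn := (dotB_nondegenerate (X := X) (F := F)).2
      exact hn _ (fun g => by rw [dotB_apply]; exact h0 g)
    intro x
    have := congrFun hz x
    simpa using this

/-- `range (r' - 1) = (I^ρ)^⊥` (always). -/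
theorem bdSub_eq_orthogonal : bdSub F ρ = (dotB X F).orthogonal (invSub F ρ) := by
  have h1 : (dotB X F).orthogonal (bdSub F ρ) = invSub F ρ := by
    ext v
    rw [LinearMap.BilinForm.mem_orthogonal_iff]
    constructor
    · intro h
      have h0 : ∀ a : X → F, a ⬝ᵥ ((fun x => v (ρ x)) - v) = 0 := by
        intro a
        have ha : ((fun x => a (ρ.symm x)) - a) ∈ bdSub F ρ := ⟨a, fun x => rfl⟩
        have := h _ ha
        rw [dotB_apply, sub_dotProduct, dot_comp_perm] at this
        rw [dotProduct_sub]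
        simpa using this
      have hz : ((fun x => v (ρ x)) - v) = 0 := by
        have hn := (dotB_nondegenerate (X := X) (F := F)).2
        exact hn _ (fun g => by rw [dotB_apply]; exact h0 g)
      intro x
      have := congrFun hz x
      simp only [Pi.sub_apply, Pi.zero_apply] at this
      linear_combination this
    · intro hv P hP
      obtain ⟨a, ha⟩ := hP
      have hP' : P = (fun x => a (ρ.symm x)) - a := by
        funext x
        simp [ha x]
      have hv' : (fun x => v (ρ.symm.symm x)) = v := by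
        funext x
        simpa using hv x
      rw [dotB_apply, hP', sub_dotProduct, dot_comp_perm, hv', sub_self]
  rw [← h1, LinearMap.BilinForm.orthogonal_orthogonal dotB_nondegenerate dotB_isRefl]

/-- **(L3)** `W = (I^s + I^ρ)^⊥`. -/
theorem cocW_eq_orthogonal (hσ : ∀ x, σ (σ x) = x) (h2 : (2 : F) ≠ 0) :
    cocW F σ ρ = (dotB X F).orthogonal (invSub F σ ⊔ invSub F ρ) := by
  rw [cocW, antiSub_eq_orthogonal hσ h2, bdSub_eq_orthogonal]
  ext P
  simp only [Submodule.mem_inf, LinearMap.BilinForm.mem_orthogonal_iff]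
  constructor
  · rintro ⟨h1, h2'⟩ n hn
    obtain ⟨u, hu, v, hv, rfl⟩ := Submodule.mem_sup.mp hn
    rw [map_add, LinearMap.add_apply, h1 u hu, h2' v hv, add_zero]
  · intro h
    exact ⟨fun n hn => h n (Submodule.mem_sup_left hn), fun n hn => h n (Submodule.mem_sup_right hn)⟩

/-- **(L3)** `W^⊥ = I^s + I^ρ`. -/
theorem orthogonal_cocW (hσ : ∀ x, σ (σ x) = x) (h2 : (2 : F) ≠ 0) :
    (dotB X F).orthogonal (cocW F σ ρ) = invSub F σ ⊔ invSub F ρ := by
  rw [cocW_eq_orthogonal hσ h2,
    LinearMap.BilinForm.orthogonal_orthogonal dotB_nondegenerate dotB_isRefl]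

/-! ### (L4) the radical -/

/-- **(L4)** The radical of `2 B(P, P') = -(P ⬝ᵥ P') - 2 (P ⬝ᵥ m')` is `C`. -/
theorem radical_iff (hσ : ∀ x, σ (σ x) = x) (h2 : (2 : F) ≠ 0) {P' m' : X → F}
    (hP' : P' ∈ cocW F σ ρ) (hm' : ∀ x, m' (ρ.symm x) - m' x = P' x) :
    (∀ P ∈ cocW F σ ρ, P ⬝ᵥ P' + 2 * (P ⬝ᵥ m') = 0) ↔ P' ∈ cobC F σ ρ := by
  constructor
  · intro h
    have hQ : (P' + (2 : F) • m') ∈ (dotB X F).orthogonal (cocW F σ ρ) := by
      rw [LinearMap.BilinForm.mem_orthogonal_iff]
      intro P hP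
      rw [dotB_apply, dotProduct_add, dotProduct_smul, smul_eq_mul]
      exact h P hP
    rw [orthogonal_cocW hσ h2] at hQ
    obtain ⟨u, hu, v, hv, huv⟩ := Submodule.mem_sup.mp hQ
    -- `n = m' - v / 2`
    have h22 : (2 : F) * 2⁻¹ = 1 := mul_inv_cancel₀ h2
    have E1 : ∀ x, u x + v x = P' x + 2 * m' x := fun x => by
      have := congrFun huv x
      simpa using this
    have E5 : ∀ x, v (ρ.symm x) = v x := fun x => by
      have := hv (ρ.symm x)
      rw [Equiv.apply_symm_apply] at this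
      exact this.symm
    have G2 : ∀ x, P' x = (m' (σ x) - 2⁻¹ * v (σ x)) - (m' x - 2⁻¹ * v x) := by
      intro x
      have e1 := E1 x
      have e1' := E1 (σ x)
      have e2 := hP'.1 x
      have e4 := hu x
      have h : (2 : F) * (P' x - ((m' (σ x) - 2⁻¹ * v (σ x)) - (m' x - 2⁻¹ * v x))) = 0 := by
        linear_combination e1' - e1 - e4 + e2 + (v (σ x) - v x) * h22
      have := (mul_eq_zero.mp h).resolve_left h2
      linear_combination this
    refine ⟨m' - (2 : F)⁻¹ • v, fun x => ?_, fun x => ?_⟩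
    · simp only [Pi.sub_apply, Pi.smul_apply, smul_eq_mul]
      have g2 := G2 x
      have e3 := hm' x
      have e5 := E5 x
      rw [e5]
      linear_combination e3 + g2
    · simp only [Pi.sub_apply, Pi.smul_apply, smul_eq_mul]
      exact G2 x
  · rintro ⟨n, hn, hPn⟩ P hP
    have hmn : P ⬝ᵥ m' = P ⬝ᵥ n := by
      refine dot_eq_of_sub_eq hP.2 (fun x => ?_)
      rw [hm' x, hPn x, hn x]
    have hP'eq : P' = (fun x => n (σ x)) - n := by
      funext x
      simp [hPn x]
    have h3 : (fun x => P (σ x)) = -P := by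
      funext x
      have := hP.1 x
      simp only [Pi.neg_apply]
      linear_combination this
    have h4 : P ⬝ᵥ (fun x => n (σ x)) = -(P ⬝ᵥ n) := by
      rw [← dot_comp_invol σ hσ, h3, neg_dotProduct]
    rw [hmn, hP'eq, dotProduct_sub, h4]
    ring

/-! ### (L5) the bundled pairing -/

variable (F ρ) in
/-- A linear section of `r' - 1` on its range. -/
theorem exists_section : ∃ sec : (X → F) →ₗ[F] (X → F),
    ∀ P ∈ bdSub F ρ, ∀ x, sec P (ρ.symm x) - sec P x = P x := by
  let D : (X → F) →ₗ[F] (X → F) := LinearMap.funLeft F F ρ.symm - LinearMap.id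
  have hD : ∀ m x, D m x = m (ρ.symm x) - m x := fun m x => rfl
  obtain ⟨g₀, hg₀⟩ := D.rangeRestrict.exists_rightInverse_of_surjective D.range_rangeRestrict
  obtain ⟨sec, hsec⟩ := LinearMap.exists_extend g₀
  refine ⟨sec, ?_⟩
  rintro P ⟨m, hm⟩ x
  have hPr : P ∈ LinearMap.range D := ⟨m, funext fun y => by rw [hD, hm y]⟩
  have h1 : sec P = g₀ ⟨P, hPr⟩ := by
    have := LinearMap.congr_fun hsec ⟨P, hPr⟩
    simpa using this
  have h2 : D (g₀ ⟨P, hPr⟩) = P := by
    have := LinearMap.congr_fun hg₀ ⟨P, hPr⟩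
    have h3 := congrArg Subtype.val this
    simpa using h3
  rw [h1, ← hD, h2]

/-- A chosen linear section of `r' - 1` on its range. -/
def secLin (F : Type*) [Field F] (ρ : Equiv.Perm X) : (X → F) →ₗ[F] (X → F) :=
  Classical.choose (exists_section F ρ)

theorem secLin_spec {P : X → F} (hP : P ∈ bdSub F ρ) (x : X) :
    secLin F ρ P (ρ.symm x) - secLin F ρ P x = P x :=
  Classical.choose_spec (exists_section F ρ) P hP x

/-- **(L5)** The pairing on `W`: `B(P, P') = -(P ⬝ᵥ P') / 2 - P ⬝ᵥ m'`, `(r' - 1) m' = P'`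
(`= (P_c, Q_c')` with `Q' = -P'/2 - m'`, #1085 (1)). -/
def pairB (F : Type*) [Field F] (σ ρ : Equiv.Perm X) : LinearMap.BilinForm F (cocW F σ ρ) :=
  LinearMap.mk₂ F
    (fun P P' => -(2⁻¹ * ((P : X → F) ⬝ᵥ (P' : X → F))) -
      (P : X → F) ⬝ᵥ secLin F ρ (P' : X → F))
    (fun P₁ P₂ P' => by
      simp only [Submodule.coe_add, add_dotProduct]
      ring)
    (fun c P P' => by
      simp only [Submodule.coe_smul, smul_dotProduct, smul_eq_mul]
      ring)
    (fun P P₁ P₂ => by
      simp only [Submodule.coe_add, dotProduct_add, map_add]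
      ring)
    (fun c P P' => by
      simp only [Submodule.coe_smul, dotProduct_smul, map_smul, smul_eq_mul]
      ring)

theorem pairB_apply (P P' : cocW F σ ρ) :
    pairB F σ ρ P P' = -(2⁻¹ * ((P : X → F) ⬝ᵥ (P' : X → F))) -
      (P : X → F) ⬝ᵥ secLin F ρ (P' : X → F) := rfl

/-- The defining property: any `m'` with `(r' - 1) m' = P'` computes `B(P, P')`. -/
theorem two_mul_pairB (h2 : (2 : F) ≠ 0) (P P' : cocW F σ ρ) (m' : X → F)
    (hm' : ∀ x, m' (ρ.symm x) - m' x = (P' : X → F) x) :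
    2 * pairB F σ ρ P P' = -((P : X → F) ⬝ᵥ (P' : X → F)) - 2 * ((P : X → F) ⬝ᵥ m') := by
  have h22 : (2 : F) * 2⁻¹ = 1 := mul_inv_cancel₀ h2
  have h1 : (P : X → F) ⬝ᵥ secLin F ρ (P' : X → F) = (P : X → F) ⬝ᵥ m' :=
    dot_eq_of_sub_eq P.2.2 (fun x => by rw [secLin_spec P'.2.2 x, hm' x])
  rw [pairB_apply, h1]
  linear_combination (-((P : X → F) ⬝ᵥ (P' : X → F))) * h22

/-- `B` is alternating. -/
theorem pairB_self (h2 : (2 : F) ≠ 0) (P : cocW F σ ρ) : pairB F σ ρ P P = 0 := by
  have h1 := two_mul_pairB h2 P P (secLin F ρ (P : X → F)) (secLin_spec P.2.2)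
  have h3 := dot_self_add_two_mul (secLin_spec (F := F) P.2.2)
  have h4 : (2 : F) * pairB F σ ρ P P = 0 := by rw [h1]; linear_combination -h3
  exact (mul_eq_zero.mp h4).resolve_left h2

/-- `B` is skew-symmetric. -/
theorem pairB_skew (h2 : (2 : F) ≠ 0) (P P' : cocW F σ ρ) :
    pairB F σ ρ P P' = -pairB F σ ρ P' P := by
  have h1 := pairB_self h2 (P + P')
  simp only [map_add, LinearMap.add_apply, pairB_self h2] at h1
  linear_combination h1

/-- The right radical of `B` is `C`. -/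
theorem pairB_right_radical (hσ : ∀ x, σ (σ x) = x) (h2 : (2 : F) ≠ 0) (P' : cocW F σ ρ) :
    (∀ P, pairB F σ ρ P P' = 0) ↔ (P' : X → F) ∈ cobC F σ ρ := by
  rw [← radical_iff hσ h2 P'.2 (secLin_spec P'.2.2)]
  constructor
  · intro h P hP
    have h1 := two_mul_pairB h2 ⟨P, hP⟩ P' _ (secLin_spec P'.2.2)
    rw [h ⟨P, hP⟩, mul_zero] at h1
    simp only at h1
    linear_combination h1
  · intro h P
    have h1 := two_mul_pairB h2 P P' _ (secLin_spec P'.2.2)
    have h3 := h P P.2
    have h4 : (2 : F) * pairB F σ ρ P P' = 0 := by rw [h1]; linear_combination -h3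
    exact (mul_eq_zero.mp h4).resolve_left h2

/-- The left radical of `B` is `C`. -/
theorem pairB_left_radical (hσ : ∀ x, σ (σ x) = x) (h2 : (2 : F) ≠ 0) (P : cocW F σ ρ) :
    (∀ P', pairB F σ ρ P P' = 0) ↔ (P : X → F) ∈ cobC F σ ρ := by
  rw [← pairB_right_radical hσ h2 P]
  constructor
  · intro h P'
    rw [pairB_skew h2, h, neg_zero]
  · intro h P'
    rw [pairB_skew h2, h, neg_zero]

variable (F σ ρ) in
/-- `C` as a submodule of `W`. -/
def cobW : Submodule F (cocW F σ ρ) := (cobC F σ ρ).comap (cocW F σ ρ).subtype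

theorem mem_cobW {P : cocW F σ ρ} : P ∈ cobW F σ ρ ↔ (P : X → F) ∈ cobC F σ ρ := Iff.rfl

/-- **Perfectness**: every functional on `W` vanishing on `C` is `B(·, P')`. -/
theorem pairB_perfect (hσ : ∀ x, σ (σ x) = x) (h2 : (2 : F) ≠ 0) (lam : cocW F σ ρ →ₗ[F] F)
    (hlam : ∀ P : cocW F σ ρ, (P : X → F) ∈ cobC F σ ρ → lam P = 0) :
    ∃ P' : cocW F σ ρ, ∀ P, lam P = pairB F σ ρ P P' := by
  have hker : LinearMap.ker (pairB F σ ρ).flip = cobW F σ ρ := by
    ext P'
    rw [LinearMap.mem_ker, mem_cobW, ← pairB_right_radical hσ h2 P']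
    constructor
    · intro h P
      have := LinearMap.congr_fun h P
      simpa using this
    · intro h
      ext P
      simpa using h P
  have hle : LinearMap.range (pairB F σ ρ).flip ≤ (cobW F σ ρ).dualAnnihilator := by
    rintro _ ⟨P', rfl⟩
    rw [Submodule.mem_dualAnnihilator]
    intro P hP
    have h5 := (pairB_left_radical hσ h2 P).2 hP P'
    simpa using h5
  have hdim : Module.finrank F (cobW F σ ρ).dualAnnihilator ≤
      Module.finrank F (LinearMap.range (pairB F σ ρ).flip) := by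
    have h1 := LinearMap.finrank_range_add_finrank_ker (pairB F σ ρ).flip
    have h3 := Subspace.finrank_add_finrank_dualAnnihilator_eq (cobW F σ ρ)
    rw [hker] at h1
    omega
  have heq : LinearMap.range (pairB F σ ρ).flip = (cobW F σ ρ).dualAnnihilator :=
    Submodule.eq_of_le_of_finrank_le hle hdim
  have hmem : lam ∈ (cobW F σ ρ).dualAnnihilator := by
    rw [Submodule.mem_dualAnnihilator]
    intro P hP
    exact hlam P hP
  rw [← heq] at hmem
  obtain ⟨P', hP'⟩ := hmem
  refine ⟨P', fun P => ?_⟩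
  rw [← hP']
  simp

/-! ### The form on `V = W / C` -/

/-- The pairing induced on `V = W / C`. -/
def pairQ (hσ : ∀ x, σ (σ x) = x) (h2 : (2 : F) ≠ 0) :
    LinearMap.BilinForm F (cocW F σ ρ ⧸ cobW F σ ρ) :=
  (cobW F σ ρ).liftQ
    ((cobW F σ ρ).dualQuotEquivDualAnnihilator.symm.toLinearMap ∘ₗ
      (pairB F σ ρ).codRestrict (cobW F σ ρ).dualAnnihilator (fun P => by
        rw [Submodule.mem_dualAnnihilator]
        intro P' hP'
        exact (pairB_right_radical hσ h2 P').2 hP' P))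
    (by
      intro P hP
      rw [LinearMap.mem_ker, LinearMap.comp_apply, LinearEquiv.coe_coe,
        LinearEquiv.map_eq_zero_iff]
      ext P'
      exact (pairB_left_radical hσ h2 P).2 hP P')

theorem pairQ_mk (hσ : ∀ x, σ (σ x) = x) (h2 : (2 : F) ≠ 0) (P P' : cocW F σ ρ) :
    pairQ hσ h2 ((cobW F σ ρ).mkQ P) ((cobW F σ ρ).mkQ P') = pairB F σ ρ P P' := by
  simp [pairQ, Submodule.dualQuotEquivDualAnnihilator]
  rfl

theorem pairQ_self (hσ : ∀ x, σ (σ x) = x) (h2 : (2 : F) ≠ 0)
    (v : cocW F σ ρ ⧸ cobW F σ ρ) : pairQ hσ h2 v v = 0 := by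
  obtain ⟨P, rfl⟩ := (cobW F σ ρ).mkQ_surjective v
  rw [pairQ_mk, pairB_self h2]

theorem pairQ_skew (hσ : ∀ x, σ (σ x) = x) (h2 : (2 : F) ≠ 0)
    (v w : cocW F σ ρ ⧸ cobW F σ ρ) : pairQ hσ h2 v w = -pairQ hσ h2 w v := by
  obtain ⟨P, rfl⟩ := (cobW F σ ρ).mkQ_surjective v
  obtain ⟨P', rfl⟩ := (cobW F σ ρ).mkQ_surjective w
  rw [pairQ_mk, pairQ_mk, pairB_skew h2]

/-- **Perfectness on `V = W / C`.** -/
theorem pairQ_nondegenerate (hσ : ∀ x, σ (σ x) = x) (h2 : (2 : F) ≠ 0) :
    (pairQ (ρ := ρ) hσ h2).Nondegenerate := by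
  constructor
  · intro v hv
    obtain ⟨P, rfl⟩ := (cobW F σ ρ).mkQ_surjective v
    have h : ∀ P', pairB F σ ρ P P' = 0 := fun P' => by
      rw [← pairQ_mk hσ h2]
      exact hv _
    have := (pairB_left_radical hσ h2 P).1 h
    exact (Submodule.Quotient.mk_eq_zero _).2 this
  · intro v hv
    obtain ⟨P', rfl⟩ := (cobW F σ ρ).mkQ_surjective v
    have h : ∀ P, pairB F σ ρ P P' = 0 := fun P => by
      rw [← pairQ_mk hσ h2]
      exact hv _
    have := (pairB_right_radical hσ h2 P').1 h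
    exact (Submodule.Quotient.mk_eq_zero _).2 this

end Fermat.Agent.S41.H14
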