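/-
S41 / helper14: the SHAPIRO DICTIONARY between parabolic homomorphisms `Γ → A`
(`-1 ∈ Γ ≤ SL(2,ℤ)` of finite index) and the coset model of `PairingLinAlg`.

On the landed cocycle model `Fermat.Agent.S16.H97` (`IsCoc`, `cocOf`, `homOfCoc`,
`exists_cocycle`; convention `c (g * h) x = c g (h • x) + c h x`, `U = S * T`):

* `exists_primitive`   : a function with vanishing orbit sums along a permutation is `n ∘ π - n`;
* `exists_normalised`  : **(D1)** a parabolic hom `φ` has a `T`-normalised cocycle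
                         (`c T = 0`, `homOfCoc c = φ`);
* model: `X = Cos Γ`, `σ = (S • ·)`, `ρ.symm = ((T * S) • ·)`;
* `coc_S_mem_cocW`     : **(D2a)** `c S ∈ cocW` for a `T`-normalised cocycle vanishing at `-1` and on
                         the elliptic stabilisers of `U`;
* `sub_mem_cobC`       : **(D2b)** two `T`-normalised cocycles with the same hom differ at `S` by
                         an element of `cobC`;
* `hom_eq_zero_of_mem_cobC` : **(D2c)** `c S ∈ cobC ⟹ homOfCoc c = 0`;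
* `exists_coc_of_mem_cocW`  : **(D2d)** every `P ∈ cocW` is `c S` for a `T`-normalised cocycle
                         vanishing at `-1` and on elliptic stabilisers, whose hom is parabolic.
-/
import Fermat.Agent.S16.H97.Lift
import Fermat.Agent.S21.H86.Parabolic
import Fermat.Agent.S41.H14.PairingLinAlg

set_option autoImplicit false
set_option linter.unusedSectionVars false

open scoped MatrixGroups
open ModularGroup Fermat.Agent.S16.H97

noncomputable section

namespace Fermat.Agent.S41.H14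

/-! ### Primitives along a permutation -/

/-- A function whose sums over closed orbit segments of a permutation vanish is of the form
`n ∘ π - n`. -/
theorem exists_primitive {X : Type*} [Finite X] {A : Type*} [AddCommGroup A] (π : Equiv.Perm X)
    (f : X → A)
    (hf : ∀ (x : X) (k : ℕ), (π ^ k) x = x → ∑ i ∈ Finset.range k, f ((π ^ i) x) = 0) :
    ∃ n : X → A, ∀ x, n (π x) - n x = f x := by
  classical
  let s := Equiv.Perm.SameCycle.setoid π
  let r : X → X := fun x => (Quotient.mk s x).out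
  have hr : ∀ x, π.SameCycle (r x) x := fun x =>
    Quotient.exact (Quotient.out_eq (Quotient.mk s x))
  have hrπ : ∀ x, r (π x) = r x := fun x => by
    show (Quotient.mk s (π x)).out = (Quotient.mk s x).out
    congr 1
    exact Quotient.sound ⟨-1, by simp⟩
  have he : ∀ x, ∃ j : ℕ, (π ^ j) (r x) = x := fun x => (hr x).exists_nat_pow_eq
  choose e he using he
  let Ssum : X → ℕ → A := fun y j => ∑ i ∈ Finset.range j, f ((π ^ i) y)
  have key : ∀ y j d, (π ^ j) y = (π ^ (j + d)) y → Ssum y j = Ssum y (j + d) := by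
    intro y j d h
    show ∑ i ∈ Finset.range j, f ((π ^ i) y) = ∑ i ∈ Finset.range (j + d), f ((π ^ i) y)
    rw [Finset.sum_range_add]
    have h0 : ∑ i ∈ Finset.range d, f ((π ^ (j + i)) y) = 0 := by
      have h1 := hf ((π ^ j) y) d (by
        rw [← Equiv.Perm.mul_apply, ← pow_add, add_comm, ← h])
      rw [← h1]
      refine Finset.sum_congr rfl fun i _ => ?_
      rw [← Equiv.Perm.mul_apply, ← pow_add, add_comm]
    rw [h0, add_zero]
  have key' : ∀ y j j', (π ^ j) y = (π ^ j') y → Ssum y j = Ssum y j' := by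
    intro y j j' h
    rcases le_total j j' with hle | hle
    · obtain ⟨d, rfl⟩ := Nat.exists_eq_add_of_le hle
      exact key y j d h
    · obtain ⟨d, rfl⟩ := Nat.exists_eq_add_of_le hle
      exact (key y j' d h.symm).symm
  refine ⟨fun x => Ssum (r x) (e x), fun x => ?_⟩
  show Ssum (r (π x)) (e (π x)) - Ssum (r x) (e x) = f x
  have h1 : (π ^ e (π x)) (r x) = (π ^ (e x + 1)) (r x) := by
    have h2 := he (π x)
    rw [hrπ x] at h2
    rw [h2, pow_succ', Equiv.Perm.mul_apply, he x]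
  rw [hrπ x, key' _ _ _ h1]
  show ∑ i ∈ Finset.range (e x + 1), f ((π ^ i) (r x)) -
    ∑ i ∈ Finset.range (e x), f ((π ^ i) (r x)) = f x
  rw [Finset.sum_range_succ, add_sub_cancel_left, he x]

/-! ### (D1): `T`-normalised cocycles -/

variable {Γ : Subgroup SL(2, ℤ)} {A : Type*} [AddCommGroup A]

theorem toPerm_pow_apply (g : SL(2, ℤ)) (k : ℕ) (x : Cos Γ) :
    ((MulAction.toPerm g : Equiv.Perm (Cos Γ)) ^ k) x = g ^ k • x := by
  induction k generalizing x with
  | zero => simp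
  | succ k ih =>
    rw [pow_succ, Equiv.Perm.mul_apply, ih, pow_succ, mul_smul]
    rfl

/-- The trace of a conjugate of a power of `T` is `2`. -/
theorem trace_conj_T_pow (r : SL(2, ℤ)) (k : ℕ) :
    ((r⁻¹ * T ^ k * r : SL(2, ℤ)) : Matrix (Fin 2) (Fin 2) ℤ).trace = 2 := by
  have h1 : ((r⁻¹ * T ^ k * r : SL(2, ℤ)) : Matrix (Fin 2) (Fin 2) ℤ) =
      (r⁻¹ : SL(2, ℤ)).1 * ((T ^ k : SL(2, ℤ)).1 * r.1) := by
    simp [mul_assoc]
  rw [h1, Matrix.trace_mul_comm, mul_assoc]
  have h2 : r.1 * (r⁻¹ : SL(2, ℤ)).1 = 1 := by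
    have h : ((r * r⁻¹ : SL(2, ℤ)) : Matrix (Fin 2) (Fin 2) ℤ) = 1 := by
      rw [mul_inv_cancel]; rfl
    rwa [Matrix.SpecialLinearGroup.coe_mul] at h
  rw [h2, mul_one]
  have h3 : ((T ^ k : SL(2, ℤ)) : Matrix (Fin 2) (Fin 2) ℤ) = !![1, (k : ℤ); 0, 1] := by
    have := ModularGroup.coe_T_zpow (k : ℤ)
    simpa using this
  show ((T ^ k : SL(2, ℤ)) : Matrix (Fin 2) (Fin 2) ℤ).trace = 2
  rw [h3, Matrix.trace_fin_two]
  simp

/-- **(D1)** A parabolic homomorphism has a `T`-normalised cocycle. -/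
theorem exists_normalised [Finite (Cos Γ)] (φ : Additive Γ →+ A)
    (hφ : ModularCurve.Period.IsParabolicHom Γ φ) :
    ∃ (c : SL(2, ℤ) → Cos Γ → A) (hc : IsCoc Γ c), c T = 0 ∧ homOfCoc c hc = φ := by
  have hsum : ∀ (x : Cos Γ) (k : ℕ), ((MulAction.toPerm T : Equiv.Perm (Cos Γ)) ^ k) x = x →
      ∑ i ∈ Finset.range k, cocOf Γ φ T (((MulAction.toPerm T : Equiv.Perm (Cos Γ)) ^ i) x) = 0 := by
    intro x k hk
    rw [toPerm_pow_apply] at hk
    have h1 := sum_cocOf_orbit φ T k x hk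
    have h2 : ∀ i ∈ Finset.range k,
        cocOf Γ φ T (((MulAction.toPerm T : Equiv.Perm (Cos Γ)) ^ i) x) =
          cocOf Γ φ T (T ^ i • x) := fun i _ => by rw [toPerm_pow_apply]
    rw [Finset.sum_congr rfl h2, h1]
    by_cases hmem : (rep Γ x)⁻¹ * T ^ k * rep Γ x ∈ Γ
    · rw [ext_of_mem φ hmem]
      apply hφ
      rw [trace_conj_T_pow]
      norm_num
    · simp [ext, hmem]
  obtain ⟨n, hn⟩ := exists_primitive (MulAction.toPerm T : Equiv.Perm (Cos Γ)) (cocOf Γ φ T) hsum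
  have hc0 := cocOf_isCoc (Γ := Γ) φ
  refine ⟨fun g x => cocOf Γ φ g x - (n (g • x) - n x), ?_, ?_, ?_⟩
  · intro g h x
    show cocOf Γ φ (g * h) x - (n ((g * h) • x) - n x) =
      cocOf Γ φ g (h • x) - (n (g • h • x) - n (h • x)) + (cocOf Γ φ h x - (n (h • x) - n x))
    rw [hc0 g h x, mul_smul]
    abel
  · funext x
    show cocOf Γ φ T x - (n (T • x) - n x) = 0
    have := hn x
    rw [MulAction.toPerm_apply] at this
    rw [this, sub_self]
  · refine AddMonoidHom.ext fun γ => ?_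
    have h1 := DFunLike.congr_fun (homOfCoc_cocOf (Γ := Γ) φ) γ
    show cocOf Γ φ ((Additive.toMul γ : Γ) : SL(2, ℤ)) (base Γ) -
      (n (((Additive.toMul γ : Γ) : SL(2, ℤ)) • base Γ) - n (base Γ)) = φ γ
    rw [smul_base_of_mem (Additive.toMul γ).2, sub_self, sub_zero]
    exact h1

/-! ### The model: `X = Cos Γ`, `σ = (S • ·)`, `ρ.symm = ((T * S) • ·)` -/

variable (Γ) in
/-- The permutation `σ = (S • ·)` of `Cos Γ`. -/
def sigmaP : Equiv.Perm (Cos Γ) := MulAction.toPerm S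

variable (Γ) in
/-- The permutation `ρ` of `Cos Γ` with `ρ.symm = ((T * S) • ·)`. -/
def rhoP : Equiv.Perm (Cos Γ) := (MulAction.toPerm (T * S)).symm

@[simp] theorem sigmaP_apply (x : Cos Γ) : sigmaP Γ x = S • x := rfl

@[simp] theorem rhoP_symm_apply (x : Cos Γ) : (rhoP Γ).symm x = (T * S) • x := rfl

theorem sigmaP_invol (hneg : (-1 : SL(2, ℤ)) ∈ Γ) (x : Cos Γ) : sigmaP Γ (sigmaP Γ x) = x :=
  S_smul_S_smul hneg x

/-- A cocycle with `c T = 0` vanishes at all powers of `T`. -/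
theorem coc_T_zpow {c : SL(2, ℤ) → Cos Γ → A} (hc : IsCoc Γ c) (hT : c T = 0) (m : ℤ)
    (x : Cos Γ) : c (T ^ m) x = 0 := by
  have hnat : ∀ (k : ℕ) (y : Cos Γ), c (T ^ k) y = 0 := by
    intro k y
    rw [hc.pow]
    refine Finset.sum_eq_zero fun i _ => ?_
    rw [hT]; rfl
  rcases Int.eq_nat_or_neg m with ⟨k, rfl | rfl⟩
  · rw [zpow_natCast]; exact hnat k x
  · rw [zpow_neg, zpow_natCast, hc.inv, hnat, neg_zero]

/-- A `T`-normalised cocycle vanishes at the base coset on trace-`2` elements fixing it. -/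
theorem coc_eq_zero_of_trace_two {c : SL(2, ℤ) → Cos Γ → A} (hc : IsCoc Γ c) (hT : c T = 0)
    (g : SL(2, ℤ)) (hg : g • base Γ = base Γ)
    (htr : (g : Matrix (Fin 2) (Fin 2) ℤ).trace = 2) : c g (base Γ) = 0 := by
  obtain ⟨δ, m, hδ⟩ := Fermat.Agent.S21.H86.exists_conj_T_zpow_of_trace_eq_two g htr
  have hgeq : g = δ * T ^ m * δ⁻¹ := by rw [← hδ]; group
  have hfix : T ^ m • δ⁻¹ • base Γ = δ⁻¹ • base Γ := by
    have h1 : (δ⁻¹ * g) • base Γ = δ⁻¹ • base Γ := by rw [mul_smul, hg]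
    have h2 : δ⁻¹ * g = T ^ m * δ⁻¹ := by rw [hgeq]; group
    rw [h2, mul_smul] at h1
    exact h1
  rw [hgeq, hc, hc, coc_T_zpow hc hT, add_zero, hfix]
  have h3 := hc δ δ⁻¹ (base Γ)
  rw [mul_inv_cancel, hc.one] at h3
  exact h3.symm

/-- The homomorphism of a `T`-normalised cocycle vanishing at `-1` is parabolic. -/
theorem isParabolicHom_homOfCoc (hneg : (-1 : SL(2, ℤ)) ∈ Γ) {c : SL(2, ℤ) → Cos Γ → A}
    (hc : IsCoc Γ c) (hT : c T = 0) (h1 : ∀ x, c (-1) x = 0) :
    ModularCurve.Period.IsParabolicHom Γ (homOfCoc c hc) := by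
  intro γ hγ
  rw [homOfCoc_apply]
  have htr : ((γ : SL(2, ℤ)) : Matrix (Fin 2) (Fin 2) ℤ).trace = 2 ∨
      ((γ : SL(2, ℤ)) : Matrix (Fin 2) (Fin 2) ℤ).trace = -2 := by
    have h : (((γ : SL(2, ℤ)) : Matrix (Fin 2) (Fin 2) ℤ).trace - 2) *
        (((γ : SL(2, ℤ)) : Matrix (Fin 2) (Fin 2) ℤ).trace + 2) = 0 := by
      linear_combination hγ
    rcases mul_eq_zero.mp h with h | h
    · left; linarith
    · right; linarith
  rcases htr with htr | htr
  · exact coc_eq_zero_of_trace_two hc hT _ (smul_base_of_mem γ.2) htr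
  · have h2 : c (-1 * (γ : SL(2, ℤ))) (base Γ) = c (γ : SL(2, ℤ)) (base Γ) := by
      rw [hc, h1, zero_add]
    rw [← h2]
    refine coc_eq_zero_of_trace_two hc hT _ (smul_base_of_mem (Γ.mul_mem hneg γ.2)) ?_
    rw [show (-1 * (γ : SL(2, ℤ)) : SL(2, ℤ)) = -(γ : SL(2, ℤ)) by simp,
      Matrix.SpecialLinearGroup.coe_neg, Matrix.trace_neg, htr]
    norm_num

/-! ### (D2a): `c S ∈ cocW` -/

section Field

variable {F : Type*} [Field F] [Fintype (Cos Γ)]

/-- **(D2a)** For a `T`-normalised cocycle vanishing at `-1` and on the elliptic stabilisers of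
`U = S * T`, the value at `S` lies in `cocW`. -/
theorem coc_S_mem_cocW {c : SL(2, ℤ) → Cos Γ → F} (hc : IsCoc Γ c) (hT : c T = 0)
    (h1 : ∀ x, c (-1) x = 0) (hU : ∀ (x : Cos Γ) (k : ℕ), U ^ k • x = x → c (U ^ k) x = 0) :
    c S ∈ cocW F (sigmaP Γ) (rhoP Γ) := by
  refine ⟨fun x => ?_, ?_⟩
  · have h := hc S S x
    rw [S_mul_S, h1] at h
    rw [sigmaP_apply, add_comm]
    exact h.symm
  · have hsum : ∀ (x : Cos Γ) (k : ℕ), ((MulAction.toPerm U : Equiv.Perm (Cos Γ)) ^ k) x = x →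
        ∑ i ∈ Finset.range k, c U (((MulAction.toPerm U : Equiv.Perm (Cos Γ)) ^ i) x) = 0 := by
      intro x k hk
      rw [toPerm_pow_apply] at hk
      have h2 : ∀ i ∈ Finset.range k,
          c U (((MulAction.toPerm U : Equiv.Perm (Cos Γ)) ^ i) x) = c U (U ^ i • x) :=
        fun i _ => by rw [toPerm_pow_apply]
      rw [Finset.sum_congr rfl h2, ← hc.pow, hU x k hk]
    obtain ⟨μ, hμ⟩ := exists_primitive (MulAction.toPerm U : Equiv.Perm (Cos Γ)) (c U) hsum
    refine ⟨fun x => μ (T⁻¹ • x), fun x => ?_⟩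
    show μ (T⁻¹ • (T * S) • x) - μ (T⁻¹ • x) = c S x
    have h3 := hμ (T⁻¹ • x)
    rw [MulAction.toPerm_apply] at h3
    have h4 : U • T⁻¹ • x = S • x := by
      rw [← mul_smul]
      congr 1
      simp [U]
    have h5 : T⁻¹ • (T * S) • x = S • x := by
      rw [← mul_smul]
      congr 1
      simp [← mul_assoc]
    have h6 : c U (T⁻¹ • x) = c S x := by
      have h7 := hc S T (T⁻¹ • x)
      rw [smul_inv_smul, hT] at h7
      simpa using h7
    rw [h5, ← h4, h3, h6]

end Field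

/-! ### Bridges between cocycle-level and hom-level vanishing conditions -/

/-- The value of a cocycle at an element fixing a coset is a value of its homomorphism. -/
theorem coc_eq_hom_of_fixed {c : SL(2, ℤ) → Cos Γ → A} (hc : IsCoc Γ c) (g : SL(2, ℤ))
    (x : Cos Γ) (hx : g • x = x) :
    ∃ h : (rep Γ x)⁻¹ * g * rep Γ x ∈ Γ,
      c g x = homOfCoc c hc (Additive.ofMul ⟨(rep Γ x)⁻¹ * g * rep Γ x, h⟩) := by
  have hmem : (rep Γ x)⁻¹ * g * rep Γ x ∈ Γ := by
    apply mem_of_smul_base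
    rw [mul_smul, mul_smul, rep_smul_base, hx, inv_smul_eq_iff, rep_smul_base]
  refine ⟨hmem, ?_⟩
  rw [homOfCoc_conj c hc g (rep Γ x) hmem, rep_smul_base]

theorem isOfFinOrder_U : IsOfFinOrder (U : SL(2, ℤ)) :=
  isOfFinOrder_iff_pow_eq_one.2 ⟨6, by norm_num, by decide⟩

/-- **(D1')** A parabolic homomorphism killing the elements of finite order has a `T`-normalised
cocycle vanishing at `-1` and on the elliptic stabilisers of `U`. -/
theorem exists_normalised_ell [Finite (Cos Γ)] (hneg : (-1 : SL(2, ℤ)) ∈ Γ) (φ : Additive Γ →+ A)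
    (hφ : ModularCurve.Period.IsParabolicHom Γ φ)
    (hell : ∀ γ : Γ, IsOfFinOrder γ → φ (Additive.ofMul γ) = 0) :
    ∃ (c : SL(2, ℤ) → Cos Γ → A) (hc : IsCoc Γ c), c T = 0 ∧ homOfCoc c hc = φ ∧
      (∀ x, c (-1) x = 0) ∧ (∀ (x : Cos Γ) (k : ℕ), U ^ k • x = x → c (U ^ k) x = 0) := by
  obtain ⟨c, hc, hT, hh⟩ := exists_normalised φ hφ
  refine ⟨c, hc, hT, hh, fun x => ?_, fun x k hk => ?_⟩
  · obtain ⟨h, he⟩ := coc_eq_hom_of_fixed hc (-1) x (neg_one_smul_cos hneg x)
    rw [he, hh]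
    apply hφ
    have h2 : ((rep Γ x)⁻¹ * (-1) * rep Γ x : SL(2, ℤ)) = -1 := by simp
    show (((rep Γ x)⁻¹ * (-1) * rep Γ x : SL(2, ℤ)) : Matrix (Fin 2) (Fin 2) ℤ).trace ^ 2 = 4
    rw [h2, Matrix.SpecialLinearGroup.coe_neg, Matrix.trace_neg, Matrix.SpecialLinearGroup.coe_one,
      Matrix.trace_one]
    simp
  · obtain ⟨h, he⟩ := coc_eq_hom_of_fixed hc (U ^ k) x hk
    rw [he, hh]
    apply hell
    have h3 := (MulAut.conj (rep Γ x)⁻¹).toMonoidHom.isOfFinOrder (isOfFinOrder_U.pow (n := k))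
    have h4 : IsOfFinOrder ((rep Γ x)⁻¹ * U ^ k * rep Γ x) := by simpa using h3
    rw [isOfFinOrder_iff_pow_eq_one] at h4 ⊢
    obtain ⟨n, hn, hpow⟩ := h4
    exact ⟨n, hn, Subtype.ext (by rw [Subgroup.coe_pow]; exact hpow)⟩

/-! ### Shapiro injectivity and coboundaries -/

/-- The coboundary of a function on `Cos Γ`. -/
theorem isCoc_cob (n : Cos Γ → A) : IsCoc Γ (fun g x => n (g • x) - n x) := by
  intro g h x
  show n ((g * h) • x) - n x = n (g • h • x) - n (h • x) + (n (h • x) - n x)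
  rw [mul_smul]
  abel

/-- **Shapiro injectivity**: a cocycle whose homomorphism vanishes is a coboundary. -/
theorem exists_cob_of_hom_eq_zero {d : SL(2, ℤ) → Cos Γ → A} (hd : IsCoc Γ d)
    (h0 : homOfCoc d hd = 0) : ∃ n : Cos Γ → A, ∀ g x, d g x = n (g • x) - n x := by
  refine ⟨fun x => d (rep Γ x) (base Γ), fun g x => ?_⟩
  show d g x = d (rep Γ (g • x)) (base Γ) - d (rep Γ x) (base Γ)
  have hmem := cocEl_mem (Γ := Γ) g x
  have h1 : d (g * rep Γ x) (base Γ) = d g x + d (rep Γ x) (base Γ) := by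
    rw [hd, rep_smul_base]
  have h2 : g * rep Γ x = rep Γ (g • x) * ((rep Γ (g • x))⁻¹ * g * rep Γ x) := by group
  have h3 : d (rep Γ (g • x) * ((rep Γ (g • x))⁻¹ * g * rep Γ x)) (base Γ) =
      d (rep Γ (g • x)) (base Γ) := by
    rw [hd, smul_base_of_mem hmem]
    have h4 := DFunLike.congr_fun h0 (Additive.ofMul ⟨_, hmem⟩)
    rw [homOfCoc_apply] at h4
    rw [h4]
    simp
  rw [h2, h3] at h1
  rw [h1]
  abel

section Field2

variable {F : Type*} [Field F] [Fintype (Cos Γ)]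

/-- **(D2b)** Two `T`-normalised cocycles with the same homomorphism differ at `S` by an element
of `cobC`. -/
theorem sub_mem_cobC {c c' : SL(2, ℤ) → Cos Γ → F} (hc : IsCoc Γ c) (hc' : IsCoc Γ c')
    (hT : c T = 0) (hT' : c' T = 0) (hh : homOfCoc c hc = homOfCoc c' hc') :
    c S - c' S ∈ cobC F (sigmaP Γ) (rhoP Γ) := by
  have hd : IsCoc Γ (fun g x => c g x - c' g x) := by
    intro g h x
    show c (g * h) x - c' (g * h) x = c g (h • x) - c' g (h • x) + (c h x - c' h x)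
    rw [hc, hc']
    abel
  have h0 : homOfCoc (fun g x => c g x - c' g x) hd = 0 := by
    refine AddMonoidHom.ext fun γ => ?_
    have h1 := DFunLike.congr_fun hh γ
    show c ((Additive.toMul γ : Γ) : SL(2, ℤ)) (base Γ) -
      c' ((Additive.toMul γ : Γ) : SL(2, ℤ)) (base Γ) = 0
    rw [sub_eq_zero]
    exact h1
  obtain ⟨n, hn⟩ := exists_cob_of_hom_eq_zero hd h0
  have hnT : ∀ x, n (T • x) = n x := by
    intro x
    have h1 := hn T x
    simp only [hT, hT', Pi.zero_apply, sub_self] at h1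
    exact (sub_eq_zero.mp h1.symm)
  refine ⟨n, fun x => ?_, fun x => ?_⟩
  · rw [rhoP_symm_apply, sigmaP_apply, mul_smul, hnT]
  · rw [sigmaP_apply]
    exact hn S x

/-- **(D2c)** A `T`-normalised cocycle with `c S ∈ cobC` has zero homomorphism. -/
theorem hom_eq_zero_of_mem_cobC {c : SL(2, ℤ) → Cos Γ → F} (hc : IsCoc Γ c) (hT : c T = 0)
    (hS : c S ∈ cobC F (sigmaP Γ) (rhoP Γ)) : homOfCoc c hc = 0 := by
  obtain ⟨n, hn, hP⟩ := hS
  have hnT : ∀ y, n (T • y) = n y := by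
    intro y
    have h1 := hn (S⁻¹ • y)
    rw [rhoP_symm_apply, sigmaP_apply, smul_inv_smul, mul_smul, smul_inv_smul] at h1
    exact h1
  have heq : c = fun g x => n (g • x) - n x := by
    refine hc.ext_of_closure (isCoc_cob n) SpecialLinearGroup.SL2Z_generators ?_
    rintro g (rfl | rfl)
    · funext x
      rw [hP x, sigmaP_apply]
    · funext x
      rw [hT, hnT, sub_self]
      rfl
  refine AddMonoidHom.ext fun γ => ?_
  show c ((Additive.toMul γ : Γ) : SL(2, ℤ)) (base Γ) = 0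
  rw [heq]
  show n (((Additive.toMul γ : Γ) : SL(2, ℤ)) • base Γ) - n (base Γ) = 0
  rw [smul_base_of_mem (Additive.toMul γ).2, sub_self]

/-- **(D2d)** Every element of `cocW` is the value at `S` of a `T`-normalised cocycle vanishing at
`-1` and on the elliptic stabilisers of `U`; its homomorphism is parabolic. -/
theorem exists_coc_of_mem_cocW (hneg : (-1 : SL(2, ℤ)) ∈ Γ) {P : Cos Γ → F}
    (hP : P ∈ cocW F (sigmaP Γ) (rhoP Γ)) :
    ∃ (c : SL(2, ℤ) → Cos Γ → F) (hc : IsCoc Γ c), c T = 0 ∧ c S = P ∧ (∀ x, c (-1) x = 0) ∧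
      (∀ (x : Cos Γ) (k : ℕ), U ^ k • x = x → c (U ^ k) x = 0) ∧
      ModularCurve.Period.IsParabolicHom Γ (homOfCoc c hc) := by
  obtain ⟨hanti, m, hm⟩ := hP
  have ha : ∀ x, P x + P (S • x) = 0 := hanti
  -- `μ = m ∘ T`, `b = P ∘ T = μ ∘ U - μ`
  have hμ : ∀ x, m (T • U • x) - m (T • x) = P (T • x) := by
    intro x
    have h1 := hm (T • x)
    rw [rhoP_symm_apply] at h1
    have h2 : (T * S) • T • x = T • U • x := by
      rw [← mul_smul, ← mul_smul]
      congr 1
      simp [U, mul_assoc]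
    rw [h2] at h1
    exact h1
  have hb : ∀ x, P (T • x) + P (T • U • x) + P (T • U • U • x) = 0 := by
    intro x
    rw [← hμ x, ← hμ (U • x), ← hμ (U • U • x), U_smul_U_smul_U_smul hneg]
    abel
  obtain ⟨c, hc, hcS, hcU⟩ := exists_cocycle hneg P (fun x => P (T • x)) ha hb
  have hT : c T = 0 := by
    funext x
    rw [hc.apply_T, hcS, hcU]
    simp
  have h1 : ∀ x, c (-1) x = 0 := by
    intro x
    have h := hc S S x
    rw [S_mul_S, hcS] at h
    rw [h, add_comm]
    exact ha x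
  refine ⟨c, hc, hT, hcS, h1, ?_, isParabolicHom_homOfCoc hneg hc hT h1⟩
  intro x k hk
  rw [hc.pow, hcU]
  have h2 : ∀ i ∈ Finset.range k, P (T • U ^ i • x) =
      m (T • U ^ (i + 1) • x) - m (T • U ^ i • x) := by
    intro i _
    have h3 : U ^ (i + 1) • x = U • U ^ i • x := by
      rw [pow_succ', mul_smul U (U ^ i) x]
    rw [h3]
    exact (hμ (U ^ i • x)).symm
  rw [Finset.sum_congr rfl h2, Finset.sum_range_sub (fun i => m (T • U ^ i • x)), hk]
  simp

end Field2

end Fermat.Agent.S41.H14
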