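/-
S41 / helper14: pairing sub-leaf (L6) — the DIMENSION of `V = W / C` in the coset model
(`Fermat.Agent.S41.H14.PairingLinAlg`), abstract form.  Mathlib only.

For a finite nonempty `X`, an involution `σ` and a permutation `ρ` such that `⟨σ, ρ⟩` is transitive
on `X`, and every field `F` with `2 ≠ 0`:

  `finrank (W / C) + #cycles σ + #cycles ρ + #cycles (ρ⁻¹ σ) = |X| + 2`.

In particular the dimension does not depend on the field (`finrank_quot_eq_of_fields`): this is the
LIFT / (PERF) input of the S41 pairing package (dimension over `ZMod p` = rank over `ℤ`).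
-/
import Fermat.Agent.S41.H14.PairingLinAlg

set_option autoImplicit false
set_option linter.unusedSectionVars false
set_option linter.style.haveILetI false

open Module

noncomputable section

namespace Fermat.Agent.S41.H14

variable {X : Type*} [Fintype X] {F : Type*} [Field F]

/-! ### Invariant functions and cycles -/

/-- The number of cycles (orbits) of a permutation. -/
def numCycles (π : Equiv.Perm X) : ℕ := Nat.card (Quotient (Equiv.Perm.SameCycle.setoid π))

theorem apply_zpow_of_invariant {π : Equiv.Perm X} {n : X → F} (hn : ∀ x, n (π x) = n x)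
    (i : ℤ) (x : X) : n ((π ^ i) x) = n x := by
  induction i using Int.induction_on generalizing x with
  | zero => simp
  | succ i ih =>
    rw [zpow_add_one, Equiv.Perm.mul_apply, ih, hn]
  | pred i ih =>
    rw [zpow_sub_one, Equiv.Perm.mul_apply, ih]
    have := hn (π.symm x)
    rw [Equiv.apply_symm_apply] at this
    exact this.symm

theorem eq_of_sameCycle {π : Equiv.Perm X} {n : X → F} (hn : ∀ x, n (π x) = n x) {x y : X}
    (h : π.SameCycle x y) : n x = n y := by
  obtain ⟨i, rfl⟩ := h
  exact (apply_zpow_of_invariant hn i x).symm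

/-- Invariant functions are the functions on the set of cycles. -/
def invSubEquiv (F : Type*) [Field F] (π : Equiv.Perm X) :
    (Quotient (Equiv.Perm.SameCycle.setoid π) → F) ≃ₗ[F] invSub F π where
  toFun f := ⟨fun x => f (Quotient.mk _ x), fun x => by
    show f (Quotient.mk _ (π x)) = f (Quotient.mk _ x)
    congr 1
    apply Quotient.sound
    exact ⟨-1, by simp⟩⟩
  map_add' f g := rfl
  map_smul' c f := rfl
  invFun n := fun q => Quotient.liftOn q (n : X → F) (fun x y h => eq_of_sameCycle n.2 h)
  left_inv f := by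
    funext q
    induction q using Quotient.inductionOn with
    | _ x => rfl
  right_inv n := rfl

theorem finrank_invSub (π : Equiv.Perm X) : finrank F (invSub F π) = numCycles π := by
  classical
  letI : Fintype (Quotient (Equiv.Perm.SameCycle.setoid π)) := Fintype.ofFinite _
  rw [← (invSubEquiv F π).finrank_eq, Module.finrank_fintype_fun_eq_card, numCycles,
    Nat.card_eq_fintype_card]

/-! ### The dimension count -/

variable {σ ρ : Equiv.Perm X}

/-- The constant functions are exactly the functions invariant under `σ` and `ρ`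
(transitivity of `⟨σ, ρ⟩`). -/
def ConstOnly (F : Type*) [Field F] (σ ρ : Equiv.Perm X) : Prop :=
  ∀ n : X → F, (∀ x, n (σ x) = n x) → (∀ x, n (ρ x) = n x) → ∃ c : F, ∀ x, n x = c

/-- Transitivity of the group generated by `σ` and `ρ` gives `ConstOnly` over every field. -/
theorem constOnly_of_transitive
    (htr : ∀ x y : X, ∃ g ∈ Subgroup.closure ({σ, ρ} : Set (Equiv.Perm X)), g x = y)
    [Nonempty X] : ConstOnly F σ ρ := by
  intro n hσn hρn
  have hinv : ∀ g ∈ Subgroup.closure ({σ, ρ} : Set (Equiv.Perm X)), ∀ x, n (g x) = n x := by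
    intro g hg
    induction hg using Subgroup.closure_induction with
    | mem g hg =>
      rcases hg with rfl | rfl
      · exact hσn
      · exact hρn
    | one => intro x; rfl
    | mul g h _ _ ihg ihh =>
      intro x
      rw [Equiv.Perm.mul_apply, ihg, ihh]
    | inv g _ ih =>
      intro x
      have := ih (g.symm x)
      rw [Equiv.apply_symm_apply] at this
      exact this.symm
  obtain ⟨x₀⟩ := ‹Nonempty X›
  refine ⟨n x₀, fun x => ?_⟩
  obtain ⟨g, hg, rfl⟩ := htr x₀ x
  exact hinv g hg x₀

theorem inf_invSub_eq_span (hc : ConstOnly F σ ρ) :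
    invSub F σ ⊓ invSub F ρ = Submodule.span F {(fun _ => (1 : F) : X → F)} := by
  ext n
  rw [Submodule.mem_inf, Submodule.mem_span_singleton]
  constructor
  · rintro ⟨h1, h2⟩
    obtain ⟨c, hcn⟩ := hc n h1 h2
    exact ⟨c, funext fun x => by simp [hcn x]⟩
  · rintro ⟨c, rfl⟩
    exact ⟨fun x => rfl, fun x => rfl⟩

theorem finrank_inf_invSub [Nonempty X] (hc : ConstOnly F σ ρ) :
    finrank F ↥(invSub F σ ⊓ invSub F ρ) = 1 := by
  rw [inf_invSub_eq_span hc]
  refine finrank_span_singleton ?_
  intro h
  obtain ⟨x₀⟩ := ‹Nonempty X›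
  have := congrFun h x₀
  simp at this

/-- `dim W + #cycles σ + #cycles ρ = |X| + 1`. -/
theorem finrank_cocW [Nonempty X] (hσ : ∀ x, σ (σ x) = x) (h2 : (2 : F) ≠ 0)
    (hc : ConstOnly F σ ρ) :
    finrank F (cocW F σ ρ) + numCycles σ + numCycles ρ = Fintype.card X + 1 := by
  have h1 := LinearMap.BilinForm.finrank_orthogonal (dotB_nondegenerate (X := X) (F := F))
    (invSub F σ ⊔ invSub F ρ)
  rw [← cocW_eq_orthogonal hσ h2, Module.finrank_fintype_fun_eq_card] at h1
  have h3 := Submodule.finrank_sup_add_finrank_inf_eq (invSub F σ) (invSub F ρ)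
  rw [finrank_inf_invSub hc, finrank_invSub, finrank_invSub] at h3
  have h4 : finrank F ↥(invSub F σ ⊔ invSub F ρ) ≤ Fintype.card X := by
    have := Submodule.finrank_le (invSub F σ ⊔ invSub F ρ)
    rwa [Module.finrank_fintype_fun_eq_card] at this
  omega

/-- The `T`-invariant functions `{n | r' n = s n}` are the invariants of `ρ⁻¹ σ`. -/
theorem mem_invSub_tau (hσ : ∀ x, σ (σ x) = x) {n : X → F} :
    n ∈ invSub F (ρ⁻¹ * σ) ↔ ∀ x, n (ρ.symm x) = n (σ x) := by
  constructor
  · intro h x
    have := h (σ x)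
    rw [Equiv.Perm.mul_apply, hσ] at this
    exact this
  · intro h x
    rw [Equiv.Perm.mul_apply]
    have := h (σ x)
    rw [hσ] at this
    exact this

/-- `dim C + 1 = #cycles (ρ⁻¹ σ)`. -/
theorem finrank_cobC [Nonempty X] (hσ : ∀ x, σ (σ x) = x) (hc : ConstOnly F σ ρ) :
    finrank F (cobC F σ ρ) + 1 = numCycles (ρ⁻¹ * σ) := by
  -- the map `n ↦ s n - n` on the `T`-invariants
  let g : invSub F (ρ⁻¹ * σ) →ₗ[F] (X → F) :=
    (LinearMap.funLeft F F σ - LinearMap.id) ∘ₗ (invSub F (ρ⁻¹ * σ)).subtype
  have hg : ∀ (n : invSub F (ρ⁻¹ * σ)) (x : X), g n x = (n : X → F) (σ x) - (n : X → F) x :=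
    fun n x => rfl
  have hrange : LinearMap.range g = cobC F σ ρ := by
    ext P
    constructor
    · rintro ⟨n, rfl⟩
      exact ⟨n, (mem_invSub_tau hσ).1 n.2, fun x => hg n x⟩
    · rintro ⟨n, hn, hP⟩
      exact ⟨⟨n, (mem_invSub_tau hσ).2 hn⟩, funext fun x => by rw [hg, hP x]⟩
  have hker : LinearMap.ker g =
      Submodule.span F {(⟨fun _ => (1 : F), fun x => rfl⟩ : invSub F (ρ⁻¹ * σ))} := by
    ext n
    rw [LinearMap.mem_ker, Submodule.mem_span_singleton]
    constructor
    · intro h
      have h1 : ∀ x, (n : X → F) (σ x) = (n : X → F) x := fun x => by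
        have := congrFun h x
        rw [hg] at this
        simpa [sub_eq_zero] using this
      have h3 : ∀ x, (n : X → F) (ρ x) = (n : X → F) x := fun x => by
        have := (mem_invSub_tau hσ).1 n.2 (ρ x)
        rw [Equiv.symm_apply_apply, h1] at this
        exact this.symm
      obtain ⟨c, hcn⟩ := hc n h1 h3
      refine ⟨c, Subtype.ext (funext fun x => ?_)⟩
      simp [hcn x]
    · rintro ⟨c, rfl⟩
      funext x
      rw [hg]
      simp
  have hdim := LinearMap.finrank_range_add_finrank_ker g
  rw [hrange, hker, finrank_invSub] at hdim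
  rw [← hdim]
  congr 1
  refine (finrank_span_singleton ?_).symm
  intro h
  obtain ⟨x₀⟩ := ‹Nonempty X›
  have := congrFun (congrArg Subtype.val h) x₀
  simp at this

/-- **(L6)** `dim (W / C) + #cycles σ + #cycles ρ + #cycles (ρ⁻¹ σ) = |X| + 2`. -/
theorem finrank_quot [Nonempty X] (hσ : ∀ x, σ (σ x) = x) (h2 : (2 : F) ≠ 0)
    (hc : ConstOnly F σ ρ) :
    finrank F (cocW F σ ρ ⧸ cobW F σ ρ) + numCycles σ + numCycles ρ + numCycles (ρ⁻¹ * σ) =
      Fintype.card X + 2 := by
  have h1 := finrank_cocW hσ h2 hc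
  have h3 := finrank_cobC (F := F) hσ hc
  have h4 := Submodule.finrank_quotient_add_finrank (cobW F σ ρ)
  have h5 : finrank F (cobW F σ ρ) = finrank F (cobC F σ ρ) :=
    (Submodule.comapSubtypeEquivOfLe (cobC_le_cocW hσ)).finrank_eq
  omega

/-- The dimension of `W / C` does not depend on the field (characteristic `≠ 2`). -/
theorem finrank_quot_eq_of_fields {F' : Type*} [Field F'] [Nonempty X]
    (hσ : ∀ x, σ (σ x) = x) (h2 : (2 : F) ≠ 0) (h2' : (2 : F') ≠ 0)
    (htr : ∀ x y : X, ∃ g ∈ Subgroup.closure ({σ, ρ} : Set (Equiv.Perm X)), g x = y) :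
    finrank F (cocW F σ ρ ⧸ cobW F σ ρ) = finrank F' (cocW F' σ ρ ⧸ cobW F' σ ρ) := by
  have h1 := finrank_quot (F := F) hσ h2 (constOnly_of_transitive htr)
  have h3 := finrank_quot (F := F') hσ h2' (constOnly_of_transitive htr)
  omega

end Fermat.Agent.S41.H14
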